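/-
Cluster E' (Mazur's descent), seat DESC-Kp / leaf KP-REP (helper47).
Blueprint: NOTES/blueprint-E-DESC-Kp.md, section 4 (REP).

**REP**: `F/K` a function field (`IsRRField K F`), `oo` a place, `Γ` a set of semilinear
automorphisms of `F/K` fixing `oo`.  A class `x ∈ Pic⁰(F)` fixed by all `t ∈ Γ` is the class of a
divisor `D` of degree `0` with `t • D = D` for all `t ∈ Γ`.

Proof: `D = E - m • oo`, `E` the canonical effective representative of cluster A
(`F3I2.exists_canonical_effective`, `F3I2.canonical_effective_fixed`).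
-/
import Mathlib
import Fermat.Agent.MUL.Orig.F3.I2.Descent.Canon
import Fermat.Agent.MUL.Orig.S14.Interface

set_option autoImplicit false

noncomputable section

namespace Fermat.Agent.EKp

open AlgebraicCurve Fermat.Agent.RR

variable {K F : Type*} [Field K] [Field F] [Algebra K F]

/-- the elements of `Divisor.principal` have degree `0`. -/
theorem rep_degree_of_mem_principal (h : IsRRField K F) {D : Divisor K F}
    (hD : D ∈ Divisor.principal (K := K) (F := F)) : Divisor.degree D = 0 := by
  obtain ⟨f, _, rfl⟩ := (Fermat.Agent.F3I2.canon_mem_principal_iff h D).mp hD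
  exact degree_divOf h f

/-- **KP-REP, divisor form**: a divisor of degree `0` whose class is fixed by `Γ` is linearly
equivalent to a divisor fixed by `Γ` (if `Γ` fixes a place `oo`). -/
theorem rep_divisor (h : IsRRField K F) (oo : Place K F) (Γ : Set (SemilinearAut K F))
    (hoo : ∀ t ∈ Γ, t • oo = oo) (D : Divisor K F) (hD : Divisor.degree D = 0)
    (hfix : ∀ t ∈ Γ, (t • D - D) ∈ Divisor.principal (K := K) (F := F)) :
    ∃ D' : Divisor K F, Divisor.degree D' = 0 ∧
      (D' - D) ∈ Divisor.principal (K := K) (F := F) ∧ ∀ t ∈ Γ, t • D' = D' := by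
  obtain ⟨m, E, hE, hED, huniq⟩ := Fermat.Agent.F3I2.exists_canonical_effective h oo D hD
  have hprin : (E - Finsupp.single oo (m : ℤ) - D) ∈ Divisor.principal (K := K) (F := F) := by
    have : E - Finsupp.single oo (m : ℤ) - D = E - D - Finsupp.single oo (m : ℤ) := by abel
    rw [this]
    exact hED
  refine ⟨E - Finsupp.single oo (m : ℤ), ?_, hprin, fun t ht => ?_⟩
  · have h0 := rep_degree_of_mem_principal h hprin
    rw [map_sub, hD, sub_zero] at h0
    exact h0
  · have hEfix : t • E = E :=
      Fermat.Agent.F3I2.canonical_effective_fixed h oo D hD m E hE hED huniq t (hoo t ht)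
        (hfix t ht)
    rw [smul_sub, SemilinearAut.smul_single, hoo t ht, hEfix]

/-- **KP-REP**: a class of `Pic⁰(F)` fixed by `Γ` is the class of a divisor fixed by `Γ`
(if `Γ` fixes a place `oo`). -/
theorem rep_pic0 (h : IsRRField K F) (oo : Place K F) (Γ : Set (SemilinearAut K F))
    (hoo : ∀ t ∈ Γ, t • oo = oo) (x : Pic0 K F) (hx : ∀ t ∈ Γ, t • x = x) :
    ∃ D : Divisor.degZero (K := K) (F := F), Pic0.mk D = x ∧
      ∀ t ∈ Γ, t • (D : Divisor K F) = (D : Divisor K F) := by
  obtain ⟨D₀, rfl⟩ := Pic0.mk_surjective x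
  have hfix : ∀ t ∈ Γ, (t • (D₀ : Divisor K F) - (D₀ : Divisor K F)) ∈
      Divisor.principal (K := K) (F := F) := by
    intro t ht
    have h1 := hx t ht
    rw [SemilinearAut.pic0_smul_mk] at h1
    have h2 := (QuotientAddGroup.eq_iff_sub_mem).mp h1
    exact h2
  obtain ⟨D', hdeg, hprin, hD'⟩ := rep_divisor h oo Γ hoo (D₀ : Divisor K F) D₀.2 hfix
  refine ⟨⟨D', hdeg⟩, ?_, hD'⟩
  exact (QuotientAddGroup.eq_iff_sub_mem).mpr hprin

end Fermat.Agent.EKp
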